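import Fermat.Agent.GD.Sha.Count
import Fermat.Agent.GD.GW.Levels

/-!
# Locally trivial characters and their common kernel
-/

set_option autoImplicit false
set_option linter.unusedSectionVars false
set_option linter.style.haveILetI false

noncomputable section

namespace Fermat.Agent.GD

open Fermat.Agent.Galois (GQ)

/-- Characters modulo `m` at the levels of `S`. -/
def charGroup (S : Finset Nat.Primes) (H : Subgroup GQ) (m : ℕ) : AddSubgroup (H → ZMod m) where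
  carrier := {χ | (∀ a b, χ (a * b) = χ a + χ b) ∧
    ∃ N, (LT S).IsLevel N ∧ ∀ h : H, (h : GQ) ∈ N → χ h = 0}
  zero_mem' := ⟨fun _ _ => (add_zero 0).symm, _, (LT S).exists_level.choose_spec, fun _ _ => rfl⟩
  add_mem' := fun {χ ξ} ⟨hχ, N, hN, hχN⟩ ⟨hξ, N', hN', hξN⟩ =>
    ⟨fun a b => by simp only [Pi.add_apply, hχ, hξ]; abel, N ⊓ N', (LT S).inf _ _ hN hN',
      fun h hh => by simp only [Pi.add_apply, hχN h hh.1, hξN h hh.2, add_zero]⟩
  neg_mem' := fun {χ} ⟨hχ, N, hN, hχN⟩ =>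
    ⟨fun a b => by simp only [Pi.neg_apply, hχ]; abel, N, hN,
      fun h hh => by simp only [Pi.neg_apply, hχN h hh, neg_zero]⟩

/-- Characters trivial on the decomposition groups at the places of `S`. -/
def locCharGroup (S : Finset Nat.Primes) (H : Subgroup GQ) (m : ℕ) : AddSubgroup (H → ZMod m) where
  carrier := {χ | χ ∈ charGroup S H m ∧
    ∀ v ∈ placesOf S, ∀ g : GQ, ∀ h : H, g * (h : GQ) * g⁻¹ ∈ decomp v → χ h = 0}
  zero_mem' := ⟨zero_mem _, fun _ _ _ _ _ => rfl⟩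
  add_mem' := fun {χ ξ} ha hb => ⟨add_mem ha.1 hb.1, fun v hv g h hh => by
    simp only [Pi.add_apply, ha.2 v hv g h hh, hb.2 v hv g h hh, add_zero]⟩
  neg_mem' := fun {χ} ha => ⟨neg_mem ha.1, fun v hv g h hh => by
    simp only [Pi.neg_apply, ha.2 v hv g h hh, neg_zero]⟩

variable {S : Finset Nat.Primes} {H : Subgroup GQ} {m : ℕ}

theorem charGroup_one {χ : H → ZMod m} (hχ : χ ∈ charGroup S H m) : χ 1 = 0 := by
  simpa using hχ.1 1 1

theorem charGroup_inv {χ : H → ZMod m} (hχ : χ ∈ charGroup S H m) (h : H) : χ h⁻¹ = -χ h :=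
  eq_neg_of_add_eq_zero_left (by rw [← hχ.1, inv_mul_cancel, charGroup_one hχ])

theorem charGroup_pow {χ : H → ZMod m} (hχ : χ ∈ charGroup S H m) (h : H) (k : ℕ) :
    χ (h ^ k) = k • χ h := by
  induction k with
  | zero => rw [pow_zero, zero_smul, charGroup_one hχ]
  | succ k ih => rw [pow_succ, hχ.1, ih, add_smul, one_smul]

variable (S H m) in
/-- The common kernel of the locally trivial characters. -/
def charKer : Subgroup GQ where
  carrier := {g | ∃ hg : g ∈ H, ∀ χ ∈ locCharGroup S H m, χ ⟨g, hg⟩ = 0}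
  one_mem' := ⟨one_mem _, fun χ hχ => charGroup_one hχ.1⟩
  mul_mem' := fun {a b} ⟨ha, hA⟩ ⟨hb, hB⟩ => ⟨mul_mem ha hb, fun χ hχ => by
    rw [show (⟨a * b, mul_mem ha hb⟩ : H) = ⟨a, ha⟩ * ⟨b, hb⟩ from rfl, hχ.1.1, hA χ hχ, hB χ hχ,
      add_zero]⟩
  inv_mem' := fun {a} ⟨ha, hA⟩ => ⟨inv_mem ha, fun χ hχ => by
    rw [show (⟨a⁻¹, inv_mem ha⟩ : H) = ⟨a, ha⟩⁻¹ from rfl, charGroup_inv hχ.1, hA χ hχ, neg_zero]⟩

theorem charKer_le : charKer S H m ≤ H := fun _ h => h.1

theorem charKer_eq_zero {χ : H → ZMod m} (hχ : χ ∈ locCharGroup S H m) {h : H}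
    (hh : (h : GQ) ∈ charKer S H m) : χ h = 0 := hh.2 χ hχ

theorem pow_mem_charKer [NeZero m] (h : H) : (h : GQ) ^ m ∈ charKer S H m :=
  ⟨pow_mem h.2 m, fun χ hχ => by
    rw [show (⟨(h : GQ) ^ m, pow_mem h.2 m⟩ : H) = h ^ m from rfl, charGroup_pow hχ.1,
      nsmul_eq_mul, ZMod.natCast_self, zero_mul]⟩

theorem decomp_mem_charKer {v : Place} (hv : v ∈ placesOf S) {g h : GQ} (hh : h ∈ H)
    (hd : g * h * g⁻¹ ∈ decomp v) : h ∈ charKer S H m :=
  ⟨hh, fun _ hχ => hχ.2 v hv g ⟨h, hh⟩ hd⟩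

theorem conj_mem_charKer [H.Normal] {h : GQ} (hh : h ∈ charKer S H m) (g : GQ) :
    g * h * g⁻¹ ∈ charKer S H m := by
  obtain ⟨hh', hk⟩ := hh
  have hn : ∀ (g' : GQ) (x : H), g' * (x : GQ) * g'⁻¹ ∈ H := fun g' x =>
    (inferInstance : H.Normal).conj_mem x x.2 g'
  refine ⟨hn g ⟨h, hh'⟩, fun χ hχ => ?_⟩
  let χ' : H → ZMod m := fun x => χ ⟨_, hn g x⟩
  have hχ' : χ' ∈ locCharGroup S H m := by
    obtain ⟨⟨hadd, N, hN, hχN⟩, hloc⟩ := hχ
    refine ⟨⟨fun a b => ?_, N, hN, fun x hx => hχN _ ?_⟩, fun v hv g' x hx => hloc v hv (g' * g⁻¹) _ ?_⟩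
    · show χ ⟨g * ((a : GQ) * b) * g⁻¹, _⟩ = χ ⟨_, hn g a⟩ + χ ⟨_, hn g b⟩
      rw [← hadd]
      congr 1
      exact Subtype.ext (by simp [mul_assoc])
    · exact (normal_of_level hN).conj_mem _ hx g
    · show g' * g⁻¹ * (g * (x : GQ) * g⁻¹) * (g' * g⁻¹)⁻¹ ∈ _
      rw [show g' * g⁻¹ * (g * (x : GQ) * g⁻¹) * (g' * g⁻¹)⁻¹ = g' * (x : GQ) * g'⁻¹ by group]
      exact hx
  exact hk χ' hχ'

theorem charKer_comm (a b : H) : (a : GQ) * b * (a : GQ)⁻¹ * (b : GQ)⁻¹ ∈ charKer S H m :=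
  ⟨mul_mem (mul_mem (mul_mem a.2 b.2) (inv_mem a.2)) (inv_mem b.2), fun χ hχ => by
    rw [show (⟨(a : GQ) * b * (a : GQ)⁻¹ * (b : GQ)⁻¹, _⟩ : H) = a * b * a⁻¹ * b⁻¹ from rfl,
      hχ.1.1, hχ.1.1, hχ.1.1, charGroup_inv hχ.1, charGroup_inv hχ.1]
    abel⟩

variable {p : ℕ} [Fact p.Prime]

/-- Finitely many characters of order `p` give finitely many of order a power of `p`. -/
theorem finite_charGroup_pow (h1 : Finite (charGroup S H p)) :
    ∀ k : ℕ, Finite (charGroup S H (p ^ k))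
  | 0 => @Finite.of_subsingleton _ ⟨fun χ ξ => Subtype.ext <| funext fun h => by
      haveI : Subsingleton (ZMod (p ^ 0)) := inferInstanceAs (Subsingleton (ZMod 1))
      exact Subsingleton.elim _ _⟩
  | k + 1 => by
    have ih := finite_charGroup_pow h1 k
    haveI : NeZero (p ^ k) := ⟨pow_ne_zero _ (Fact.out : p.Prime).ne_zero⟩
    haveI : NeZero (p ^ (k + 1)) := ⟨pow_ne_zero _ (Fact.out : p.Prime).ne_zero⟩
    let π : ZMod (p ^ (k + 1)) →+* ZMod p := ZMod.castHom (dvd_pow_self p (Nat.succ_ne_zero k)) _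
    let F : charGroup S H (p ^ (k + 1)) →+ charGroup S H p :=
      AddMonoidHom.mk' (fun χ => ⟨fun h => π (χ.1 h), fun a b => by
          show π (χ.1 (a * b)) = π (χ.1 a) + π (χ.1 b)
          rw [χ.2.1, map_add], by
        obtain ⟨N, hN, h⟩ := χ.2.2
        exact ⟨N, hN, fun x hx => by
          show π (χ.1 x) = 0
          rw [h x hx, map_zero]⟩⟩)
        fun χ ξ => Subtype.ext (funext fun h => map_add π _ _)
    -- the kernel consists of multiples of `p`
    let e : ZMod (p ^ k) → ZMod (p ^ (k + 1)) := fun u => ((p * u.val : ℕ) : ZMod (p ^ (k + 1)))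
    have he_add : ∀ u w, e (u + w) = e u + e w := fun u w => by
      show ((p * (u + w).val : ℕ) : ZMod (p ^ (k + 1))) = (p * u.val : ℕ) + (p * w.val : ℕ)
      rw [← Nat.cast_add, ← mul_add, ZMod.natCast_eq_natCast_iff', ZMod.val_add,
        pow_succ', Nat.mul_mod_mul_left, Nat.mul_mod_mul_left, Nat.mod_mod]
    have he_inj : Function.Injective e := fun u w h => by
      have h' := congrArg ZMod.val h
      simp only [e, ZMod.val_natCast] at h'
      rw [pow_succ', Nat.mul_mod_mul_left, Nat.mul_mod_mul_left, Nat.mod_eq_of_lt (ZMod.val_lt u),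
        Nat.mod_eq_of_lt (ZMod.val_lt w)] at h'
      exact ZMod.val_injective _ (Nat.eq_of_mul_eq_mul_left (Fact.out : p.Prime).pos h')
    have he_surj : ∀ a, π a = 0 → ∃ u, e u = a := fun a ha => by
      have hd : p ∣ a.val := by
        rw [← ZMod.natCast_eq_zero_iff, ← map_natCast π, ZMod.natCast_zmod_val, ha]
      obtain ⟨t, ht⟩ := hd
      have htlt : t < p ^ k := by
        have := ZMod.val_lt a
        rw [ht, pow_succ'] at this
        exact Nat.lt_of_mul_lt_mul_left this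
      refine ⟨(t : ZMod (p ^ k)), ?_⟩
      show ((p * (t : ZMod (p ^ k)).val : ℕ) : ZMod (p ^ (k + 1))) = a
      rw [ZMod.val_natCast, Nat.mod_eq_of_lt htlt, ← ht, ZMod.natCast_zmod_val]
    have hker : ∀ χ : F.ker, ∃ ξ : charGroup S H (p ^ k), ∀ h, e (ξ.1 h) = χ.1.1 h := fun χ => by
      choose u hu using fun h => he_surj (χ.1.1 h) (congrFun (congrArg Subtype.val
        (AddMonoidHom.mem_ker.mp χ.2)) h)
      refine ⟨⟨u, fun a b => he_inj ?_, ?_⟩, hu⟩
      · rw [he_add, hu, hu, hu, χ.1.2.1]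
      · obtain ⟨N, hN, h⟩ := χ.1.2.2
        exact ⟨N, hN, fun x hx => he_inj (by rw [hu, h x hx]; simp [e])⟩
    choose ξ hξ using hker
    have hfk : Finite F.ker := Finite.of_injective ξ fun χ χ' h => Subtype.ext (Subtype.ext
      (funext fun x => by rw [← hξ χ x, ← hξ χ' x, h]))
    haveI : Finite (charGroup S H (p ^ (k + 1)) ⧸ F.ker) :=
      Finite.of_injective _ (QuotientAddGroup.kerLift_injective F)
    exact Finite.of_equiv _ (AddSubgroup.addGroupEquivQuotientProdAddSubgroup (s := F.ker)).symm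

/-- The common kernel of finitely many characters of a level is a level. -/
theorem isLevel_charKer (hH : (LT S).IsLevel H)
    (hfin' : Finite (charGroup S H m)) : (LT S).IsLevel (charKer S H m) := by
  classical
  haveI := normal_of_level hH
  have hfin : (charGroup S H m : Set (H → ZMod m)).Finite := Set.toFinite _
  have hlev : ∀ T : Finset (H → ZMod m), (∀ χ ∈ T, χ ∈ charGroup S H m) →
      ∃ M, (LT S).IsLevel M ∧ M ≤ H ∧ ∀ χ ∈ T, ∀ h : H, (h : GQ) ∈ M → χ h = 0 := by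
    intro T
    induction T using Finset.induction_on with
    | empty => exact fun _ => ⟨H, hH, le_rfl, by simp⟩
    | insert a T _ ih =>
      intro hT
      obtain ⟨M, hM, hMH, hMT⟩ := ih fun χ hχ => hT χ (Finset.mem_insert_of_mem hχ)
      obtain ⟨-, N, hN, haN⟩ := hT a (Finset.mem_insert_self _ _)
      refine ⟨M ⊓ N, (LT S).inf _ _ hM hN, inf_le_left.trans hMH, fun χ hχ h hh => ?_⟩
      rcases Finset.mem_insert.mp hχ with rfl | hχ
      · exact haN h hh.2
      · exact hMT χ hχ h hh.1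
  obtain ⟨M, hM, hMH, hMT⟩ := hlev hfin.toFinset fun χ hχ => hfin.mem_toFinset.mp hχ
  have hle : M ≤ charKer S H m := fun s hs =>
    ⟨hMH hs, fun χ hχ => hMT χ (hfin.mem_toFinset.mpr hχ.1) ⟨s, hMH hs⟩ hs⟩
  haveI : (charKer S H m).Normal := ⟨fun n hn g => conj_mem_charKer hn g⟩
  refine isLevel_of_inertia _ ?_ fun q hq A hA => (inertia_le_of_level hM hq hA).trans hle
  obtain ⟨F, hF, hFM, -⟩ := hM
  exact ⟨F, hF.1, fun s hs => hle ((SetLike.ext_iff.mp hFM s).mpr hs)⟩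

end Fermat.Agent.GD
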