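import Fermat.Agent.GD.Sha.Obstruction
import Fermat.Agent.GD.Sha.Norm.Chars

/-!
# Sums of translates of lifts
-/

set_option autoImplicit false
set_option linter.unusedSectionVars false
set_option linter.style.haveILetI false

noncomputable section

namespace Fermat.Agent.GD

open Fermat.Agent.Galois (GQ)

local notation "ℚb" => AlgebraicClosure ℚ

variable {p : ℕ} [Fact p.Prime] {S : Finset Nat.Primes}
variable {M : Type} [AddCommGroup M] [DistribMulAction GQ M]

attribute [local instance] actLT actLD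

/-- The translate of a homomorphism into the classes. -/
def moveCls (g : GQ) (ψ : M →+ ClassT S) : M →+ ClassT S :=
  (DistribSMul.toAddMonoidHom _ (lt S g)).comp (ψ.comp (DistribSMul.toAddMonoidHom M g⁻¹))

theorem moveCls_apply (g : GQ) (ψ : M →+ ClassT S) (m : M) :
    moveCls g ψ m = lt S g • ψ (g⁻¹ • m) := rfl

theorem moveCls_mul (g h : GQ) (ψ : M →+ ClassT S) :
    moveCls (g * h) ψ = moveCls g (moveCls h ψ) := AddMonoidHom.ext fun m => by
  simp only [moveCls_apply, mul_inv_rev, mul_smul]
  exact mul_smul (lt S g) (lt S h) _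

theorem moveHom_mul (g h : GQ) (f : M →+ Additive (idele S)) :
    moveHom (g * h) f = moveHom g (moveHom h f) := AddMonoidHom.ext fun m => by
  simp only [moveHom_apply, mul_inv_rev, mul_smul]
  exact mul_smul (lt S g) (lt S h) _

theorem moveCls_sum {ι : Type} [Fintype ι] (g : GQ) (ψ : ι → M →+ ClassT S) :
    moveCls g (∑ i, ψ i) = ∑ i, moveCls g (ψ i) := AddMonoidHom.ext fun m => by
  simp only [moveCls_apply, AddMonoidHom.finsetSum_apply, Finset.smul_sum]

theorem moveHom_sum {ι : Type} [Fintype ι] (g : GQ) (f : ι → M →+ Additive (idele S)) :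
    moveHom g (∑ i, f i) = ∑ i, moveHom g (f i) := AddMonoidHom.ext fun m => by
  simp only [moveHom_apply, AddMonoidHom.finsetSum_apply, Finset.smul_sum]

theorem IsLift.move {f : M →+ Additive (idele S)} {ψ : M →+ ClassT S} (h : IsLift f ψ) (g : GQ) :
    IsLift (moveHom g f) (moveCls g ψ) :=
  ⟨fun m => (h.supp _).smul g, fun m => by rw [moveHom_apply, classHom_smul, h.cls, moveCls_apply]⟩

theorem IsLift.sum {ι : Type} [Fintype ι] {f : ι → M →+ Additive (idele S)}
    {ψ : ι → M →+ ClassT S} (h : ∀ i, IsLift (f i) (ψ i)) : IsLift (∑ i, f i) (∑ i, ψ i) :=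
  ⟨fun m => by rw [AddMonoidHom.finsetSum_apply]; exact isSupp_sum _ _ fun i _ => (h i).supp m,
    fun m => by
      simp only [AddMonoidHom.finsetSum_apply, map_sum]
      exact Finset.sum_congr rfl fun i _ => (h i).cls m⟩

/-- A translate of an invariant homomorphism along an element fixing it. -/
theorem moveCls_mul_fix {ψ : M →+ ClassT S} (g : GQ) {h : GQ} (hh : moveCls h ψ = ψ) :
    moveCls (g * h) ψ = moveCls g ψ := by rw [moveCls_mul, hh]

/-- The failure of equivariance of a sum of translates. -/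
theorem err_sum_moves (hp : ∀ m : M, p • m = 0) {f : M →+ Additive (idele S)}
    {ψ : M →+ ClassT S} (hl : IsLift f ψ) {ι : Type} [Fintype ι] (t η : ι → GQ) (σ : Equiv.Perm ι)
    (g : GQ) (hg : ∀ i, g * t i = t (σ i) * η i) (hη : ∀ i, moveCls (η i) ψ = ψ) :
    err (∑ i, moveHom (t i) f) g = ∑ i, dualSmul M (t (σ i)) (err f (η i)) := by
  let EV : (M →+ Additive (idele S)) →+ DualMod M :=
    AddMonoidHom.mk' (fun w => ((evalAt none 1).comp w :)) fun w w' =>
      AddMonoidHom.ext fun m => map_add (evalAt none 1) (w m) (w' m)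
  show EV (moveHom g (∑ i, moveHom (t i) f) - ∑ i, moveHom (t i) f) = _
  refine (map_sub EV _ _).trans ?_
  rw [moveHom_sum, map_sum, map_sum, ← Equiv.sum_comp σ fun i => EV (moveHom (t i) f),
    ← Finset.sum_sub_distrib]
  refine Finset.sum_congr rfl fun i _ => ?_
  refine (map_sub EV _ _).symm.trans ?_
  rw [← moveHom_mul, hg, moveHom_mul]
  refine AddMonoidHom.ext fun m => ?_
  show evalAt none 1 (lt S (t (σ i)) • moveHom (η i) f ((t (σ i))⁻¹ • m) -
      lt S (t (σ i)) • f ((t (σ i))⁻¹ • m)) = t (σ i) • (err f (η i)).app M ((t (σ i))⁻¹ • m)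
  rw [← smul_sub, evalAt_lt, one_mul]
  show evalAt none (t (σ i)) ((moveHom (η i) f - f) ((t (σ i))⁻¹ • m)) =
    t (σ i) • (err f (η i)).app M ((t (σ i))⁻¹ • m)
  refine (torsion_class_zero (p := p) ?_ ?_).2 none mem_placesOf_none _
  · rw [← map_nsmul, hp, map_zero]
  · rw [AddMonoidHom.sub_apply, map_sub, (hl.move (η i)).cls, hl.cls, hη, sub_self]

variable (hp : ∀ m : M, p • m = 0) {N : Subgroup (LT S).G} (hN : (LT S).IsLevel N)
  (hμ : FixesMu p N) (hMN : ∀ s : GQ, s ∈ N → ∀ m : M, s • m = m)

include hp hμ hMN in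
theorem dualSmul_fixed {n : GQ} (hn : n ∈ N) (φ : DualMod M) : dualSmul M n φ = φ :=
  AddMonoidHom.ext fun m => by
    show n • φ.app M (n⁻¹ • m) = φ.app M m
    rw [hMN n⁻¹ (inv_mem hn), mu_fixed hμ (S := S) _ hn]
    show p • (show M →+ Additive ℚbˣ from φ) m = 0
    rw [← map_nsmul, hp, map_zero]

include hp hN hμ hMN in
/-- The failure of equivariance vanishes on the decomposition groups inside the level. -/
theorem err_loc_zero {f : M →+ Additive (idele S)} {ψ : M →+ ClassT S} (hl : IsLift f ψ)
    {h : GQ} (hh : h ∈ N) (hhψ : moveCls h ψ = ψ) {v : Place} (hv : v ∈ placesOf S) {g : GQ}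
    (hd : g * h * g⁻¹ ∈ decomp v) : err f h = 0 := by
  refine AddMonoidHom.ext fun m => ?_
  have h1 := comp_err hp hl (g := h) (fun m' => DFunLike.congr_fun hhψ m') hv g m
  rw [hMN h⁻¹ (inv_mem hh)] at h1
  have h2 : evalAt v (g * h) (f m) = evalAt v g (f m) := by
    rw [show g * h = g * h * g⁻¹ * g by group, evalAt_decomp v hd]
    have hpt : p • evalAt v g (f m) = 0 := by rw [← map_nsmul, ← map_nsmul, hp, map_zero, map_zero]
    exact mu_fixed hμ hpt ((normal_of_level hN).conj_mem _ hh g)
  rw [h2, sub_self] at h1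
  show (err f h).app M m = 0
  exact (smul_eq_zero_iff_eq g).mp h1.symm

/-- A character into the roots of unity as a residue. -/
def muIndex (u : Additive ℚbˣ) : ZMod p := if hu : p • u = 0 then (exists_toMu p hu).choose else 0

theorem toMu_muIndex {u : Additive ℚbˣ} (hu : p • u = 0) : toMu p (muIndex u) = u := by
  rw [muIndex, dif_pos hu]
  exact (exists_toMu p hu).choose_spec

include hp hN hμ hMN in
/-- The failure of equivariance kills the common kernel of the locally trivial characters. -/
theorem err_eq_zero_of_charKer [Finite M] {N' : Subgroup (LT S).G}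
    (hle : N' ≤ N) {f : M →+ Additive (idele S)} {ψ : M →+ ClassT S} (hl : IsLift f ψ)
    (hψ : ∀ h : GQ, h ∈ N' → moveCls h ψ = ψ) {k : GQ} (hk : k ∈ charKer S N' p) : err f k = 0 := by
  refine AddMonoidHom.ext fun m => ?_
  have hpp : ∀ h : GQ, p • (err f h).app M m = 0 := fun h => by
    show p • (show M →+ Additive ℚbˣ from err f h) m = 0
    rw [← map_nsmul, hp, map_zero]
  let χ : N' → ZMod p := fun h => muIndex ((err f (show GQ from h.1)).app M m)
  have hN'' : ∀ s : GQ, s ∈ N' → ∀ m : M, s • m = m := fun s hs => hMN s (hle hs)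
  have hχ : χ ∈ locCharGroup S N' p := by
    obtain ⟨N₁, hN₁, hc⟩ := err_const hN hMN f
    refine ⟨⟨fun a b => toMu_injective p ?_, N₁, hN₁, fun h hh => toMu_injective p ?_⟩,
      fun v hv g h hd => toMu_injective p ?_⟩
    · have hm := err_mul hp hl (show GQ from a.1) (h := (show GQ from b.1))
        (fun m' => DFunLike.congr_fun (hψ _ b.2) m')
      rw [dualSmul_fixed hp hμ hMN (hle a.2)] at hm
      simp only [χ, map_add, toMu_muIndex (hpp _)]
      exact congrArg (fun φ : DualMod M => φ.app M m) hm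
    · simp only [χ, toMu_muIndex (hpp _), map_zero]
      have h1 := hc (1 : GQ) (show GQ from h.1) hh
      have h2 : err f (show GQ from h.1) = err f 1 :=
        (congrArg (err f) (one_mul (show GQ from h.1)).symm).trans h1
      rw [h2, err_apply, inv_one, one_smul, sub_self]
    · simp only [χ, toMu_muIndex (hpp _), map_zero]
      rw [err_loc_zero hp hN hμ hMN hl (hle h.2) (hψ _ h.2) hv hd]
      rfl
  obtain ⟨hk', hkχ⟩ := hk
  have h1 := congrArg (toMu p) (hkχ χ hχ)
  simp only [χ, toMu_muIndex (hpp _), map_zero] at h1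
  exact h1

end Fermat.Agent.GD
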