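import Fermat.Agent.GD.Sha.Norm.Chars
import Fermat.Agent.GD.Sha.CarryIdele

/-!
# The exponent of the locally trivial characters
-/

set_option autoImplicit false
set_option linter.unusedSectionVars false
set_option linter.style.haveILetI false

noncomputable section

namespace Fermat.Agent.GD

open Fermat.Agent.Galois (GQ)

variable {p : ℕ} [Fact p.Prime] {S : Finset Nat.Primes} {H : Subgroup (LT S).G}

/-- The characters of order `p` are finitely many. -/
theorem finite_charGroup_prime (hp2 : p ≠ 2) (D : ClassData p)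
    (hS : (⟨p, Fact.out⟩ : Nat.Primes) ∈ S) {N : Subgroup (LT S).G} (hN : (LT S).IsLevel N) (hle : N ≤ H)
    (hμ : FixesMu p H) : Finite (charGroup S H p) := by
  have hHo : (LT S).IsOpen H := ⟨N, hN, hle⟩
  letI := trivAction ((LT S).sub H).G (ZMod p)
  haveI := finite_z1_triv hp2 hS hHo hμ D
  haveI : N.Normal := normal_of_level hN
  have hmem : ∀ χ : charGroup S H p, (χ.1 : H → ZMod p) ∈ ((LT S).sub H).Z1 (ZMod p) := by
    rintro ⟨χ, hadd, M, hM, hχM⟩
    refine ⟨⟨_, ⟨M, hM, rfl⟩, fun g s hs => ?_⟩, fun g h => ?_⟩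
    · exact (hadd g s).trans (by rw [hχM s hs, add_zero])
    · exact hadd g h
  exact Finite.of_injective (fun χ => (⟨χ.1, hmem χ⟩ :
    ((LT S).sub H).Z1 (ZMod p))) fun χ χ' h => Subtype.ext (congrArg Subtype.val h :)

/-- Multiples in a cyclic group of prime-power order. -/
theorem exists_prime_digit {k : ℕ} (a : ZMod (p ^ (k + 1))) (ha : p • a = 0) :
    ∃ x : ZMod p, a = ((p ^ k * x.val : ℕ) : ZMod (p ^ (k + 1))) := by
  haveI : NeZero (p ^ (k + 1)) := ⟨pow_ne_zero _ (Fact.out : p.Prime).ne_zero⟩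
  have h1 : p ^ k ∣ a.val := by
    rw [← ZMod.natCast_zmod_val a, nsmul_eq_mul, ← Nat.cast_mul, ZMod.natCast_eq_zero_iff] at ha
    generalize a.val = t at ha ⊢
    rw [pow_succ'] at ha
    exact Nat.dvd_of_mul_dvd_mul_left (Fact.out : p.Prime).pos ha
  obtain ⟨t, ht⟩ := h1
  have htp : t < p := by
    have := ZMod.val_lt a
    rw [ht, pow_succ] at this
    exact Nat.lt_of_mul_lt_mul_left this
  exact ⟨(t : ZMod p), by rw [ZMod.val_natCast, Nat.mod_eq_of_lt htp, ← ht, ZMod.natCast_zmod_val]⟩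

theorem prime_digit_injective {k : ℕ} :
    Function.Injective fun x : ZMod p => ((p ^ k * x.val : ℕ) : ZMod (p ^ (k + 1))) := fun x y h => by
  have h' : (((p ^ k * x.val : ℕ) : ZMod (p ^ (k + 1)))).val =
      (((p ^ k * y.val : ℕ) : ZMod (p ^ (k + 1)))).val := congrArg ZMod.val h
  rw [ZMod.val_natCast, ZMod.val_natCast, pow_succ, Nat.mul_mod_mul_left, Nat.mul_mod_mul_left,
    Nat.mod_eq_of_lt (ZMod.val_lt x), Nat.mod_eq_of_lt (ZMod.val_lt y)] at h'
  exact ZMod.val_injective _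
    (Nat.eq_of_mul_eq_mul_left (pow_pos (Fact.out : p.Prime).pos k) h')

/-- A locally trivial character is killed by the `p`-part of the order of the `S`-class group. -/
theorem pow_smul_locChar_eq_zero (hp2 : p ≠ 2) (D : ClassData p)
    (hS : (⟨p, Fact.out⟩ : Nat.Primes) ∈ S) {N : Subgroup (LT S).G} (hN : (LT S).IsLevel N) (hle : N ≤ H)
    (hμ : FixesMu p H) {j r : ℕ} (hr : r.Coprime p) (hcard : Nat.card (ClS S H) = p ^ j * r)
    {m : ℕ} {χ : H → ZMod (p ^ m)} (hχ : χ ∈ locCharGroup S H (p ^ m)) : p ^ j • χ = 0 := by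
  classical
  by_contra hne
  have hp0 : p ≠ 0 := (Fact.out : p.Prime).ne_zero
  haveI : ∀ i : ℕ, NeZero (p ^ i) := fun i => ⟨pow_ne_zero _ hp0⟩
  have hpm : p ^ m • χ = 0 := funext fun h => by
    rw [Pi.smul_apply, nsmul_eq_mul, ZMod.natCast_self, zero_mul]; rfl
  -- the last nonzero multiple
  have hP : ∃ e, p ^ e • χ = 0 := ⟨m, hpm⟩
  obtain ⟨e, he1, he2, hje⟩ : ∃ e, p ^ (e + 1) • χ = 0 ∧ p ^ e • χ ≠ 0 ∧ j ≤ e := by
    have hpos : j < Nat.find hP := by
      by_contra hle'
      refine hne ?_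
      obtain ⟨t, ht⟩ := Nat.exists_eq_add_of_le (not_lt.mp hle')
      rw [ht, pow_add, mul_comm, mul_smul, Nat.find_spec hP, smul_zero]
    refine ⟨Nat.find hP - 1, ?_, Nat.find_min hP (by omega), by omega⟩
    rw [show Nat.find hP - 1 + 1 = Nat.find hP by omega]
    exact Nat.find_spec hP
  obtain ⟨k, rfl⟩ : ∃ k, m = k + 1 := ⟨m - 1, (Nat.succ_pred_eq_of_ne_zero fun h => hne (by
    subst h
    funext g
    exact @Subsingleton.elim _ (inferInstanceAs (Subsingleton (ZMod 1))) _ _)).symm⟩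
  set χ' : H → ZMod (p ^ (k + 1)) := p ^ (e - j) • χ with hχ'def
  have hχ' : χ' ∈ locCharGroup S H (p ^ (k + 1)) := AddSubgroup.nsmul_mem _ hχ _
  have hje' : p ^ j • χ' = p ^ e • χ := by
    rw [hχ'def, ← mul_smul, ← pow_add, show j + (e - j) = e by omega]
  choose x hx using fun h : H => exists_prime_digit (p := p) (k := k) ((p ^ j • χ') h) (by
    rw [hje', ← Pi.smul_apply, ← mul_smul, ← pow_succ', he1]; rfl)
  have hinj := prime_digit_injective (p := p) (k := k)
  -- the integral lift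
  obtain ⟨⟨hadd, M, hM, hχM⟩, hloc⟩ := hχ'
  have hxval : ∀ h, ∃ b : ℤ, (p : ℤ) ^ j * (χ' h).val = (p : ℤ) ^ k * (x h).val + (p : ℤ) ^ (k + 1) * b := by
    intro h
    have h2 : (((p ^ j * (χ' h).val : ℕ) : ZMod (p ^ (k + 1)))) = ((p ^ k * (x h).val : ℕ) : ZMod (p ^ (k + 1))) := by
      rw [← hx h, Pi.smul_apply, nsmul_eq_mul, Nat.cast_mul, ZMod.natCast_zmod_val]
    obtain ⟨b, hb⟩ := Nat.modEq_iff_dvd.mp ((ZMod.natCast_eq_natCast_iff _ _ _).mp h2.symm)
    refine ⟨b, ?_⟩
    push_cast at hb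
    linear_combination hb
  choose b hb using hxval
  have hxadd : ∀ g g', x (g * g') = x g + x g' := fun g g' => hinj (by
    show ((p ^ k * (x (g * g')).val : ℕ) : ZMod (p ^ (k + 1))) = ((p ^ k * (x g + x g').val : ℕ) : ZMod (p ^ (k + 1)))
    rw [← hx (g * g'), Pi.smul_apply, show χ' (g * g') = χ' g + χ' g' from hadd g g', smul_add, show p ^ j • χ' g = (p ^ j • χ') g from rfl,
      show p ^ j • χ' g' = (p ^ j • χ') g' from rfl, hx g, hx g', ← Nat.cast_add, ← mul_add,
      ZMod.natCast_eq_natCast_iff', ZMod.val_add, pow_succ, Nat.mul_mod_mul_left,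
      Nat.mul_mod_mul_left, Nat.mod_mod])
  haveI : M.Normal := normal_of_level hM
  have hconst : ∀ g s : H, (s : (LT S).G) ∈ M → χ' (g * s) = χ' g := fun g s hs => by
    exact (hadd g s).trans (by rw [hχM s hs, add_zero])
  have hxconst : ∀ g s : H, (s : (LT S).G) ∈ M → x (g * s) = x g := fun g s hs => hinj (by
    show ((p ^ k * (x (g * s)).val : ℕ) : ZMod (p ^ (k + 1))) = ((p ^ k * (x g).val : ℕ) : ZMod (p ^ (k + 1)))
    rw [← hx, ← hx, Pi.smul_apply, Pi.smul_apply, hconst g s hs])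
  have hbconst : ∀ g s : H, (s : (LT S).G) ∈ M → b (g * s) = b g := fun g s hs => by
    have h1 := hb (g * s)
    rw [hconst g s hs, hxconst g s hs, hb g] at h1
    have h2 : (p : ℤ) ^ (k + 1) * b g = (p : ℤ) ^ (k + 1) * b (g * s) := by linarith
    exact (mul_left_cancel₀ (pow_ne_zero _ (by exact_mod_cast hp0)) h2).symm
  have hcarry : ∀ g g', (carryNat (x g) (x g') : ℤ) =
      (p : ℤ) ^ j * carryNat (χ' g) (χ' g') - (b g + b g' - b (g * g')) := fun g g' => by
    have h1 := carryNat_spec (χ' g) (χ' g')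
    have h2 := carryNat_spec (x g) (x g')
    rw [← show χ' (g * g') = χ' g + χ' g' from hadd g g'] at h1
    rw [← show x (g * g') = x g + x g' from hxadd g g'] at h2
    have h1' : ((p : ℤ) ^ (k + 1)) * carryNat (χ' g) (χ' g') + (χ' (g * g')).val =
        (χ' g).val + (χ' g').val := by exact_mod_cast h1
    have h2' : (p : ℤ) * carryNat (x g) (x g') + (x (g * g')).val = (x g).val + (x g').val := by
      exact_mod_cast h2
    refine mul_left_cancel₀ (pow_ne_zero (k + 1) (by exact_mod_cast hp0 : (p : ℤ) ≠ 0)) ?_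
    linear_combination (p : ℤ) ^ k * h2' - (p : ℤ) ^ j * h1' + hb (g * g') - hb g - hb g'
  -- the pairing with every extension vanishes
  letI := trivAction ((LT S).sub H).G (ZMod p)
  have hHo : (LT S).IsOpen H := ⟨N, hN, hle⟩
  have hMsm : ((LT S).sub H).Smooth (ZMod p) := fun _ =>
    ⟨_, ((LT S).sub H).exists_level.choose_spec, fun _ _ => rfl⟩
  let xz : ((LT S).sub H).Z1 (ZMod p) :=
    ⟨x, ⟨_, ⟨M, hM, rfl⟩, fun g s hs => hxconst g s hs⟩, fun g g' => hxadd g g'⟩
  have hpM : ∀ a : ZMod p, p • a = 0 := fun a => by rw [nsmul_eq_mul, ZMod.natCast_self, zero_mul]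
  let P := ((D.glob S hS).sub H hHo).pairHom hMsm
  have hfix : ∀ a : fixPts (ClassT S) H,
      P xz ⟨carryExt a.1, carryExt_mem (fun _ _ => rfl) fun g => a.2 _ g.2⟩ = 0 := by
    intro a
    set κ : ((LT S).sub H).SymZ (ZMod p) (ClassT S) :=
      ⟨carryExt a.1, carryExt_mem (fun _ _ => rfl) fun g => a.2 _ g.2⟩
    have hka : (p ^ j * r) • a ∈ locClasses S H := by
      rw [← hcard]
      exact (QuotientAddGroup.eq_zero_iff _).mp (card_nsmul_eq_zero' (x := (a : ClS S H)))
    obtain ⟨f, hf⟩ : ∃ f : unitIdeles S H, classHom S f.1 = (p ^ j * r) • a.1 := hka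
    obtain ⟨c, ⟨_, ⟨M', hM', rfl⟩, hcM⟩, hc⟩ :=
      isB2_carry_unitIdele hHo ((LT S).inf _ _ hN hM) (inf_le_left.trans hle) χ' hadd
        (fun s hs => hχM s hs.2) hloc f.2
    have key : ∀ g g' : H,
        (g : (LT S).G) • (classHom S (c g') - b g' • (r • a.1)) -
            (classHom S (c (g * g')) - b (g * g') • (r • a.1)) + (classHom S (c g) - b g • (r • a.1)) =
          r • (carryExt a.1 (x g) (x g')) := fun g g' => by
      have hra : ∀ n : ℤ, (g : (LT S).G) • (n • (r • a.1)) = n • (r • a.1) := fun n => by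
        rw [smul_comm (g : (LT S).G) n, smul_comm (g : (LT S).G) r, a.2 _ g.2]
      have hd : (g : (LT S).G) • c g' - c (g * g') + c g = carryNat (χ' g) (χ' g') • f.1 :=
        congrFun hc (g, g')
      have h3 : (g : (LT S).G) • classHom S (c g') - classHom S (c (g * g')) + classHom S (c g) =
          carryNat (χ' g) (χ' g') • classHom S f.1 := by
        rw [← classHom_smul, ← map_sub, ← map_add, ← map_nsmul, hd]
      rw [hf, mul_smul, ← mul_smul (carryNat (χ' g) (χ' g')), mul_comm (carryNat _ _)] at h3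
      rw [show carryExt a.1 (x g) (x g') = carryNat (x g) (x g') • a.1 from rfl, smul_comm r,
        ← natCast_zsmul (r • a.1), hcarry, sub_smul, sub_smul, add_smul, ← Nat.cast_pow,
        ← Nat.cast_mul, natCast_zsmul, ← h3, smul_sub, hra]
      abel
    have hzero : P xz (r • κ) = 0 := by
      refine ((D.glob S hS).sub H hHo).inv_d₁ _ ⟨fun g => classHom S (c g) - b g • (r • a.1),
        ⟨_, ⟨M' ⊓ M, (LT S).inf _ _ hM' hM, rfl⟩, fun g s hs => ?_⟩, funext fun y => ?_⟩
      · simp only [hcM g s hs.1, hbconst g s hs.2]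
      · exact key y.1 y.2
    obtain ⟨u, w, huw⟩ := Nat.isCoprime_iff_coprime.mpr hr
    have hp' : p • P xz κ = 0 := by
      rw [← AddMonoidHom.nsmul_apply, ← map_nsmul,
        show p • xz = 0 from Subtype.ext (funext fun g => hpM (x g)), map_zero, AddMonoidHom.zero_apply]
    rw [map_nsmul] at hzero
    have := congrArg (· • P xz κ) huw
    simp only [add_smul, mul_smul, natCast_zsmul, hzero, hp', smul_zero, add_zero, one_smul] at this
    exact this.symm
  have hx0 : (xz : ((LT S).sub H).G → ZMod p) = 0 :=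
    (D.glob S hS).left_triv hHo (fun _ _ => rfl)
      (fun H' ξ hc => exists_not_norm_class hp2 hμ H' ξ hc) hMsm xz fun κ => by
      obtain ⟨a, ha, hsub⟩ := exists_carryExt_sub (L := (LT S).sub H) (fun _ _ => rfl) κ.2
      let aH : fixPts (ClassT S) H := ⟨a, fun g hg => ha ⟨g, hg⟩⟩
      have h1 : P xz (κ - ⟨carryExt a, carryExt_mem (fun _ _ => rfl) fun g => aH.2 _ g.2⟩) = 0 :=
        ((D.glob S hS).sub H hHo).pairHom_symB hMsm xz _ hsub
      rw [map_sub, sub_eq_zero] at h1
      exact h1.trans (hfix aH)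
  refine he2 (hje' ▸ funext fun h => ?_)
  rw [hx h, show x h = 0 from congrFun hx0 h, ZMod.val_zero, mul_zero, Nat.cast_zero]
  rfl

end Fermat.Agent.GD
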