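import Fermat.Agent.GD.Sha.Capitulation
import Fermat.Agent.GD.Sha.Norm.Bound

/-!
# The transfer to the kernel of the locally trivial characters
-/

set_option autoImplicit false
set_option linter.unusedSectionVars false
set_option linter.style.haveILetI false

noncomputable section

namespace Fermat.Agent.GD

open Fermat.Agent.Galois (GQ)

variable {p : ℕ} [Fact p.Prime] {S : Finset Nat.Primes}

local notation "AC" => AddCircle (1 : ℚ)

/-- Torsion values in the circle come from residues. -/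
theorem exists_circle_residue {X : Type*} [Group X] {m : ℕ} [NeZero m] (f : X → AC)
    (hf : ∀ a b, f (a * b) = f a + f b) (hm : ∀ a, m • f a = 0) :
    ∃ χ : X → ZMod m, (∀ a b, χ (a * b) = χ a + χ b) ∧ ∀ a, χ a = 0 ↔ f a = 0 := by
  have h1 : (zmultiplesHom AC (((1 / m : ℚ)) : AC)) (m : ℤ) = 0 := by
    rw [zmultiplesHom_apply, ← AddCircle.coe_zsmul, AddCircle.coe_eq_zero_iff]
    exact ⟨1, by simp [NeZero.ne m]⟩
  let ι : ZMod m →+ AC := ZMod.lift m ⟨_, h1⟩
  have hι : ∀ k : ℤ, ι (k : ZMod m) = k • (((1 / m : ℚ)) : AC) := fun k => ZMod.lift_coe m _ k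
  have hinj : Function.Injective ι := by
    rw [injective_iff_map_eq_zero]
    intro a ha
    obtain ⟨k, rfl⟩ := ZMod.intCast_surjective a
    rw [hι, ← AddCircle.coe_zsmul, AddCircle.coe_eq_zero_iff] at ha
    obtain ⟨t, ht⟩ := ha
    rw [ZMod.intCast_zmod_eq_zero_iff_dvd]
    refine ⟨t, ?_⟩
    have hm0 : (m : ℚ) ≠ 0 := by exact_mod_cast NeZero.ne m
    have h2 : (k : ℚ) = (m : ℚ) * t := by
      simp only [zsmul_eq_mul, mul_one] at ht
      rw [ht]; field_simp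
    exact_mod_cast h2
  have hsurj : ∀ a, ∃ x, ι x = f a := fun a => by
    obtain ⟨q, hq⟩ := QuotientAddGroup.mk_surjective (f a)
    have h2 := hm a
    rw [← hq, ← AddCircle.coe_nsmul, AddCircle.coe_eq_zero_iff] at h2
    obtain ⟨k, hk⟩ := h2
    refine ⟨(k : ZMod m), ?_⟩
    rw [hι, ← hq, ← AddCircle.coe_zsmul]
    congr 1
    simp only [zsmul_eq_mul, nsmul_eq_mul, mul_one] at hk ⊢
    have hm0 : (m : ℚ) ≠ 0 := by exact_mod_cast NeZero.ne m
    rw [hk]
    field_simp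
  choose χ hχ using hsurj
  exact ⟨χ, fun a b => hinj (by rw [map_add, hχ, hχ, hχ, hf]),
    fun a => ⟨fun h => by rw [← hχ, h, map_zero], fun h => hinj (by rw [hχ, h, map_zero])⟩⟩

/-- Additive functions killing the second kernel have vanishing transfer. -/
theorem transfer_charKer {H H₁ K : Subgroup GQ} [H.Normal] [H₁.Normal] {j : ℕ}
    (hH₁def : H₁ = charKer S H (p ^ j)) (hKdef : K = charKer S H₁ p)
    (hK : (LT S).IsLevel K)
    (hbound : ∀ m, ∀ χ ∈ locCharGroup S H (p ^ m), p ^ j • χ = 0)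
    {V : Type*} [AddCommGroup V] (χ : GQ → V)
    (hχ : ∀ a ∈ H₁, ∀ b ∈ H₁, χ (a * b) = χ a + χ b) (hχK : ∀ k ∈ K, χ k = 0)
    (sec : H ⧸ H₁.subgroupOf H → H) (hsec : ∀ a, (sec a : H ⧸ H₁.subgroupOf H) = a)
    [Fintype (H ⧸ H₁.subgroupOf H)] (g : H) :
    ∑ a : H ⧸ H₁.subgroupOf H, χ ((sec (g • a) : GQ)⁻¹ * g * sec a) = 0 := by
  classical
  haveI : ∀ i : ℕ, NeZero (p ^ i) := fun i => ⟨pow_ne_zero _ (Fact.out : p.Prime).ne_zero⟩
  haveI : K.Normal := normal_of_level hK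
  have hKH₁ : K ≤ H₁ := hKdef ▸ charKer_le
  have hcomm : ∀ a b : H, a * b * a⁻¹ * b⁻¹ ∈ H₁.subgroupOf H := fun a b => by
    show _ ∈ H₁
    rw [hH₁def]
    exact charKer_comm a b
  letI : CommGroup (H ⧸ H₁.subgroupOf H) :=
    { (inferInstance : Group (H ⧸ H₁.subgroupOf H)) with
      mul_comm := by
        rintro ⟨a⟩ ⟨b⟩
        refine (QuotientGroup.eq (s := H₁.subgroupOf H)).mpr ?_
        rw [show (a * b)⁻¹ * (b * a) = b⁻¹ * a⁻¹ * b⁻¹⁻¹ * a⁻¹⁻¹ by group]
        exact hcomm _ _ }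
  let π : H →* H ⧸ H₁.subgroupOf H := QuotientGroup.mk' _
  let c : H ⧸ H₁.subgroupOf H → H → V := fun s x =>
    χ ((sec (π x * s) : GQ)⁻¹ * x * sec s)
  have hmem : ∀ s (x : H), ((sec (π x * s) : GQ)⁻¹ * x * sec s) ∈ H₁ := fun s x => by
    have h : (((sec (π x * s))⁻¹ * x * sec s : H)) ∈ H₁.subgroupOf H := by
      rw [← QuotientGroup.eq_one_iff, QuotientGroup.mk_mul, QuotientGroup.mk_mul, QuotientGroup.mk_inv,
        hsec, hsec, mul_assoc, inv_mul_eq_one]
      rfl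
    exact Subgroup.mem_subgroupOf.mp h
  have hc : ∀ s x y, c s (x * y) = c (s * π y) x + c s y := fun s x y => by
    show χ _ = χ _ + χ _
    rw [← hχ _ (hmem _ _) _ (hmem _ _)]
    congr 1
    rw [show s * π y = π y * s from mul_comm _ _, map_mul, mul_assoc (π x)]
    push_cast
    group
  have hKπ : ∀ k ∈ (K.subgroupOf H : Set H), π k = 1 := fun k hk =>
    (QuotientGroup.eq_one_iff _).mpr (hKH₁ hk)
  have hKc : ∀ k ∈ (K.subgroupOf H : Set H), ∀ s, c s k = 0 := fun k hk s => by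
    refine hχK _ ?_
    rw [hKπ k hk, one_mul]
    simpa using! (inferInstance : K.Normal).conj_mem _ hk (sec s : GQ)⁻¹
  haveI : K.FiniteIndex := (LT S).finiteIndex K hK
  haveI : Finite (H ⧸ K.subgroupOf H) := Subgroup.finite_quotient_of_finiteIndex
  obtain ⟨n, ⟨e⟩⟩ := Finite.exists_equiv_fin (H ⧸ K.subgroupOf H)
  let gen : Fin n → H := fun i => (e.symm i).out
  have hgen : Subgroup.closure (Set.range gen ∪ (K.subgroupOf H : Set H)) = ⊤ := by
    refine eq_top_iff.mpr fun x _ => ?_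
    have h1 : ((x : H ⧸ K.subgroupOf H)).out⁻¹ * x ∈ K.subgroupOf H :=
      QuotientGroup.eq.mp (QuotientGroup.out_eq' _)
    rw [show x = (x : H ⧸ K.subgroupOf H).out * ((x : H ⧸ K.subgroupOf H).out⁻¹ * x) by group]
    exact mul_mem (Subgroup.subset_closure (Or.inl ⟨e x, by simp [gen]⟩))
      (Subgroup.subset_closure (Or.inr h1))
  have hker : π.ker ≤ Subgroup.closure (commutatorSet H ∪ (K.subgroupOf H : Set H)) := by
    set J := Subgroup.closure (commutatorSet H ∪ (K.subgroupOf H : Set H)) with hJ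
    intro x hx
    have hxH₁ : (x : GQ) ∈ H₁ := (QuotientGroup.eq_one_iff x).mp hx
    have hJc : ∀ a b : H, a * b * a⁻¹ * b⁻¹ ∈ J := fun a b =>
      Subgroup.subset_closure (Or.inl ⟨a, b, rfl⟩)
    haveI : J.Normal := ⟨fun a ha b => by
      rw [show b * a * b⁻¹ = b * a * b⁻¹ * a⁻¹ * a by group]
      exact mul_mem (hJc b a) ha⟩
    letI : CommGroup (H ⧸ J) :=
      { (inferInstance : Group (H ⧸ J)) with
        mul_comm := by
          rintro ⟨a⟩ ⟨b⟩
          refine (QuotientGroup.eq (s := J)).mpr ?_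
          rw [show (a * b)⁻¹ * (b * a) = b⁻¹ * a⁻¹ * b⁻¹⁻¹ * a⁻¹⁻¹ by group]
          exact hJc _ _ }
    have hKJ : ∀ y : H, (y : GQ) ∈ K → y ∈ J := fun y hy => Subgroup.subset_closure (Or.inr hy)
    by_contra hxJ
    obtain ⟨ξ, hξ⟩ := CharacterModule.exists_character_apply_ne_zero_of_ne_zero
      (a := Additive.ofMul (x : H ⧸ J)) (fun h => hxJ ((QuotientGroup.eq_one_iff x).mp h))
    let fH : H → AC := fun y => ξ (Additive.ofMul (y : H ⧸ J))
    have hfadd : ∀ a b, fH (a * b) = fH a + fH b := fun a b => by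
      show ξ _ = ξ _ + ξ _
      rw [← map_add, ← ofMul_mul]; rfl
    have hpow : ∀ y : H, p ^ (j + 1) • fH y = 0 := fun y => by
      show p ^ (j + 1) • ξ _ = 0
      rw [← map_nsmul, ← ofMul_pow, ← QuotientGroup.mk_pow, (QuotientGroup.eq_one_iff _).mpr
        (hKJ _ ?_), ofMul_one, map_zero]
      have h1 : (y : GQ) ^ p ^ j ∈ H₁ := hH₁def ▸ pow_mem_charKer y
      have h2 : ((y : GQ) ^ p ^ j) ^ p ∈ K :=
        haveI : NeZero p := ⟨(Fact.out : p.Prime).ne_zero⟩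
        hKdef ▸ pow_mem_charKer (S := S) (⟨_, h1⟩ : H₁)
      rw [Subgroup.coe_pow, pow_succ, pow_mul]
      exact h2
    obtain ⟨χ₁, hχ₁, hχ₁0⟩ := exists_circle_residue fH hfadd hpow
    have hzero : ∀ y : H, (y : GQ) ∈ K → χ₁ y = 0 := fun y hy => (hχ₁0 y).mpr (by
      show ξ _ = 0
      rw [(QuotientGroup.eq_one_iff y).mpr (hKJ y hy)]
      exact map_zero _)
    have hmem₁ : χ₁ ∈ locCharGroup S H (p ^ (j + 1)) :=
      ⟨⟨hχ₁, K, hK, hzero⟩, fun v hv s y hy => hzero y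
        (hKdef ▸ decomp_mem_charKer hv (hH₁def ▸ decomp_mem_charKer hv y.2 hy) hy)⟩
    have hj := hbound _ χ₁ hmem₁
    have hfj : ∀ y, p ^ j • fH y = 0 := fun y => by
      have h1 : χ₁ (y ^ p ^ j) = 0 := by
        rw [charGroup_pow hmem₁.1]
        exact congrFun hj y
      have h2 := (hχ₁0 _).mp h1
      have h3 : ∀ k : ℕ, fH (y ^ k) = k • fH y := fun k => by
        show ξ _ = k • ξ _
        rw [← map_nsmul, ← ofMul_pow, ← QuotientGroup.mk_pow]
      rwa [h3] at h2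
    obtain ⟨χ₀, hχ₀, hχ₀0⟩ := exists_circle_residue fH hfadd hfj
    have hmem₀ : χ₀ ∈ locCharGroup S H (p ^ j) :=
      ⟨⟨hχ₀, K, hK, fun y hy => (hχ₀0 y).mpr ((hχ₁0 y).mp (hzero y hy))⟩, fun v hv s y hy =>
        (hχ₀0 y).mpr ((hχ₁0 y).mp (hmem₁.2 v hv s y hy))⟩
    exact hξ ((hχ₀0 x).mp (charKer_eq_zero hmem₀ (hH₁def ▸ hxH₁)))
  have hmain := Capit.transfer_eq_zero (π := π) (c := c) (K := (K.subgroupOf H : Set H))
    (QuotientGroup.mk'_surjective _) hc hKπ hKc gen hgen hker g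
  refine Eq.trans (Finset.sum_congr rfl fun a _ => ?_) hmain
  show _ = χ _
  congr 4

end Fermat.Agent.GD
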